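import Fermat.Agent.S59.LO.H646.UnpadCore
import Fermat.Agent.S58.H94.FromEngine
import Fermat.Agent.Ribet.H943.Final

/-!
# Row S59, cell LO (moonshot), W-form AUX-PRIME GLUE, part 2 (helper646): UNCONDITIONAL forms

* `unpad646 : UnpadStatement646` — UNPAD, unconditional: for every odd `p`, a prime `r ≠ p` of
  good reduction of `W`, `r ∤ M`, with `a_r(W)² ≢ (r + 1)² mod p` is removed from the level `r M`.
  (`UnpadCore.unpad_of_s35_646` on the PLAIN chain of S35 `S58.H94.s35Statement_h94` and on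
  (R3'-W) `Ribet.H943.Final.almostAllToWitnessW`.)
* `resMod_mul_iff646` — for such `r`: level `r M` ⇔ level `M`.
* `exists_aux3_646 : Cheb3Statement646 → Aux3Statement646` — at `p = 3`: outside every finite set
  there is a prime `r ≡ 2 mod 3` of good reduction such that for EVERY `M > 0` prime to `r`,
  `W` is residually modular of level `r M` iff it is of level `M` ("the auxiliary prime is free").
  `Cheb3Statement646` is `H826.Cheb32Statement` VERBATIM (closed off-main by helper817,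
  `H817.cheb32_h817`).
-/

set_option autoImplicit false

namespace Fermat.Agent.S59.LO.H646

/-- **UNPAD** (statement). -/
def UnpadStatement646 : Prop :=
  ∀ (p : ℕ) [Fact p.Prime] (_hp2 : p ≠ 2) (W : WeierstrassCurve ℤ) (_hΔ : W.Δ ≠ 0)
    (_hirr : W.ModRepIsIrreducible p) (M r : ℕ) (_hM : 0 < M) (_hr : r.Prime) (_hrp : r ≠ p)
    (_hrM : ¬ r ∣ M) (_hgood : W.IsGoodPrimeFor r)
    (_hne : ¬ (p : ℤ) ∣ W.apOfModel r ^ 2 - ((r : ℤ) + 1) ^ 2)
    (_hres : W.IsResiduallyModularOfLevel p (r * M)),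
    W.IsResiduallyModularOfLevel p M

/-- **UNPAD**, unconditional. -/
theorem unpad646 : UnpadStatement646 :=
  fun p _ hp2 W hΔ hirr M r hM hr hrp hrM hgood hne hres =>
    unpad_of_s35_646 Fermat.Agent.S58.H94.s35Statement_h94
      Fermat.Agent.Ribet.H943.Final.almostAllToWitnessW p hp2 W hΔ hirr M r hM hr hrp hrM hgood
      hne hres

/-- Level `r M` ⇔ level `M` at a prime `r` which is not a level-raising prime. -/
theorem resMod_mul_iff646 (p : ℕ) [Fact p.Prime] (hp2 : p ≠ 2) (W : WeierstrassCurve ℤ)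
    (hΔ : W.Δ ≠ 0) (hirr : W.ModRepIsIrreducible p) (M r : ℕ) (hM : 0 < M) (hr : r.Prime)
    (hrp : r ≠ p) (hrM : ¬ r ∣ M) (hgood : W.IsGoodPrimeFor r)
    (hne : ¬ (p : ℤ) ∣ W.apOfModel r ^ 2 - ((r : ℤ) + 1) ^ 2) :
    W.IsResiduallyModularOfLevel p (r * M) ↔ W.IsResiduallyModularOfLevel p M :=
  ⟨unpad646 p hp2 W hΔ hirr M r hM hr hrp hrM hgood hne,
    resMod_pad646 W p (Nat.mul_ne_zero hr.ne_zero hM.ne') (dvd_mul_left M r)⟩

/-- `H826.Cheb32Statement`, verbatim (closed off-main by helper817). -/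
def Cheb3Statement646 : Prop :=
  ∀ (W : WeierstrassCurve ℤ), W.Δ ≠ 0 → W.IsSemistableModel → W.ModRepIsIrreducible 3 →
    ∀ S : Finset ℕ, ∃ r : ℕ, r.Prime ∧ r ∉ S ∧ W.IsGoodPrimeFor r ∧ r % 3 = 2 ∧
      ¬ (3 : ℤ) ∣ W.apOfModel r

/-- **The auxiliary prime at `p = 3` is free** (statement). -/
def Aux3Statement646 : Prop :=
  ∀ (W : WeierstrassCurve ℤ), W.Δ ≠ 0 → W.IsSemistableModel → W.ModRepIsIrreducible 3 →
    ∀ S : Finset ℕ, ∃ r : ℕ, r.Prime ∧ r ∉ S ∧ r ≠ 3 ∧ W.IsGoodPrimeFor r ∧ r % 3 = 2 ∧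
      ¬ (3 : ℤ) ∣ W.apOfModel r ∧
      ∀ M : ℕ, 0 < M → ¬ r ∣ M →
        (W.IsResiduallyModularOfLevel 3 (r * M) ↔ W.IsResiduallyModularOfLevel 3 M)

/-- `a² - (r + 1)²` is prime to `3` when `r ≡ 2 mod 3` and `3 ∤ a`. -/
theorem not_dvd_sq_sub646 {a : ℤ} {r : ℕ} (hr : r % 3 = 2) (ha : ¬ (3 : ℤ) ∣ a) :
    ¬ (3 : ℤ) ∣ a ^ 2 - ((r : ℤ) + 1) ^ 2 := by
  intro h
  have h3 : (3 : ℤ) ∣ (r : ℤ) + 1 := by omega
  have h4 : (3 : ℤ) ∣ a ^ 2 := by
    have h5 : (3 : ℤ) ∣ ((r : ℤ) + 1) ^ 2 := Dvd.dvd.pow h3 two_ne_zero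
    have := dvd_add h h5
    simpa using this
  exact ha (Int.Prime.dvd_pow' (by norm_num) h4)

/-- **The auxiliary prime at `p = 3` is free.** -/
theorem exists_aux3_646 (hCheb : Cheb3Statement646) : Aux3Statement646 := by
  intro W hΔ hW hirr S
  haveI : Fact (Nat.Prime 3) := ⟨by norm_num⟩
  obtain ⟨r, hr, hrS, hgood, hr3, har⟩ := hCheb W hΔ hW hirr S
  have hr3' : r ≠ 3 := by
    rintro rfl
    omega
  refine ⟨r, hr, hrS, hr3', hgood, hr3, har, fun M hM hrM => ?_⟩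
  exact resMod_mul_iff646 3 (by norm_num) W hΔ hirr M r hM hr hr3' hrM hgood
    (by exact_mod_cast not_dvd_sq_sub646 hr3 har)

end Fermat.Agent.S59.LO.H646
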