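import Fermat.Agent.S58.Spec
import Fermat.Agent.S58.H94.EigChar
import Fermat.Agent.S58.H273.Hres
import Fermat.Agent.S59.H401.DictPoint
import Fermat.Agent.Lib.Newform.Main
import Fermat.Agent.S54.FrobExists
import Fermat.Agent.Ribet.Spec3

/-!
# Row S59, cell LO (moonshot), W-form AUX-PRIME GLUE, part 1 (helper646): PAD and UNPAD

Prelude language only (`W.IsResiduallyModularOfLevel p M`), every odd prime `p`.

* `resMod_pad646` (PAD): `M ∣ C`, `C ≠ 0`: residually modular of level `M` ⇒ of level `C`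
  (`Lib.Newform.stab`).
* `unpad_of_s35_646` (UNPAD): `r ≠ p` a prime of good reduction of `W`, `r ∤ M`, which is NOT a
  level-raising prime (`a_r(W)² ≢ (r + 1)² mod p`): residually modular of level `r M` ⇒ of level
  `M`.  Inputs: the frozen S35 as a `Prop` and (R3'-W) `AlmostAllToWitnessWStatement`.

Proof of UNPAD.  `f` of level `r M`, `𝔪 ∋ p`; `Lib.Newform.descent` gives a newform `g₀` of a level
`M₀ ∣ r M` with the eigenvalues of `f` away from `r M`.
* `r ∤ M₀`: then `M₀ ∣ M`, `stab` raises `g₀` to level `M` and (R3'-W) upgrades the congruence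
  (known away from `r M p Δ`) to all good primes `ℓ ∤ M p` (this includes `ℓ = r`).
* `r ∣ M₀` (so `r ∥ M₀`): take a `p`-adic point `P` of the coefficient ring `chig.range` centred
  at the prime below `𝔪` (`H401.dict_exists_point_of_pts`, `S31.H262.pts_of_reduced`); the
  representation `ρ` of S35 over `O'' ⊇ P.O` has residual Frobenius characteristic polynomials
  `X² - a_ℓ(W) X + ℓ` outside a finite set, hence (Chebotarev, `H273.charpoly_residual_eq_of_frob`)
  `charpoly ρ̄(g) = charpoly W[p](g)` for EVERY `g`; at a Frobenius `φ` at `r` the left side is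
  `X² ∓ (r + 1) X + r` (S35) and the right side is `X² - a_r(W) X + r`: so `p ∣ a_r(W) ∓ (r + 1)`.
-/

set_option autoImplicit false
set_option linter.style.haveILetI false

open Polynomial IsLocalRing CuspForm CongruenceSubgroup ModularFormClass

namespace Fermat.Agent.S59.LO.H646

/-! ## PAD -/

/-- **PAD.**  Residual modularity of level `M` gives residual modularity of every level
`C ≠ 0` divisible by `M`. -/
theorem resMod_pad646 (W : WeierstrassCurve ℤ) (p : ℕ) {M C : ℕ} (hC : C ≠ 0) (hMC : M ∣ C)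
    (hres : W.IsResiduallyModularOfLevel p M) : W.IsResiduallyModularOfLevel p C := by
  obtain ⟨f, 𝔪, hf, h𝔪, hp𝔪, hcong⟩ := hres
  haveI : NeZero C := ⟨hC⟩
  obtain ⟨g', hg', hcoef⟩ := Fermat.Agent.Lib.Newform.stab M C hMC f hf
  refine ⟨g', 𝔪, hg', h𝔪, hp𝔪, fun ℓ hℓ hgood hℓC hℓp => ?_⟩
  have hℓM : ¬ ℓ ∣ M := fun h => hℓC (h.trans hMC)
  obtain ⟨a, ha, ham⟩ := hcong ℓ hℓ hgood hℓM hℓp
  exact ⟨a, by rw [ha, hcoef ℓ hℓ hℓC], ham⟩

/-! ## Reduction of a subring of `ℤ̄` -/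

/-- The inclusion of a subring of `ℂ` consisting of algebraic integers into `ℤ̄`. -/
noncomputable def inclOf646 (R : Subring ℂ) (hR : ∀ x ∈ R, x ∈ integralClosure ℤ ℂ) :
    R →+* integralClosure ℤ ℂ where
  toFun x := ⟨x.1, hR x.1 x.2⟩
  map_one' := rfl
  map_mul' _ _ := rfl
  map_zero' := rfl
  map_add' _ _ := rfl

theorem inclOf646_coe (R : Subring ℂ) (hR : ∀ x ∈ R, x ∈ integralClosure ℤ ℂ) (x : R) :
    ((inclOf646 R hR x : integralClosure ℤ ℂ) : ℂ) = (x : ℂ) := rfl

/-- Coefficient `1` of `X² - b X + c`. -/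
theorem coeff_one_quad646 {K : Type*} [CommRing K] (b c : K) :
    (X ^ 2 - C b * X + C c : K[X]).coeff 1 = -b := by
  simp [coeff_X_pow, coeff_C]

/-- Coefficient `1` of `X² + b X + c`. -/
theorem coeff_one_quad646' {K : Type*} [CommRing K] (b c : K) :
    (X ^ 2 + C b * X + C c : K[X]).coeff 1 = b := by
  simp [coeff_X_pow, coeff_C]

/-- Base change of `X² - b X + c`. -/
theorem map_quad646 {A B : Type*} [CommRing A] [CommRing B] (f : A →+* B) (b c : A) :
    (X ^ 2 - C b * X + C c : A[X]).map f = X ^ 2 - C (f b) * X + C (f c) := by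
  simp only [Polynomial.map_add, Polynomial.map_sub, Polynomial.map_mul, Polynomial.map_pow,
    Polynomial.map_X, Polynomial.map_C]

/-- Base change of `X² + b X + c`. -/
theorem map_quad646' {A B : Type*} [CommRing A] [CommRing B] (f : A →+* B) (b c : A) :
    (X ^ 2 + C b * X + C c : A[X]).map f = X ^ 2 + C (f b) * X + C (f c) := by
  simp only [Polynomial.map_add, Polynomial.map_mul, Polynomial.map_pow,
    Polynomial.map_X, Polynomial.map_C]

/-! ## UNPAD -/

/-- **UNPAD from S35.**  A prime `r ≠ p` of good reduction of `W` with `r ∤ M` and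
`a_r(W)² ≢ (r + 1)² mod p` can be removed from the level `r M`. -/
theorem unpad_of_s35_646 (h35 : Fermat.Agent.S58.S35Statement)
    (hAA : Fermat.Agent.Ribet.Spec.AlmostAllToWitnessWStatement)
    (p : ℕ) [Fact p.Prime] (hp2 : p ≠ 2) (W : WeierstrassCurve ℤ) (hΔ : W.Δ ≠ 0)
    (hirr : W.ModRepIsIrreducible p) (M r : ℕ) (hM : 0 < M) (hr : r.Prime) (hrp : r ≠ p)
    (hrM : ¬ r ∣ M) (hgood : W.IsGoodPrimeFor r)
    (hne : ¬ (p : ℤ) ∣ W.apOfModel r ^ 2 - ((r : ℤ) + 1) ^ 2)
    (hres : W.IsResiduallyModularOfLevel p (r * M)) :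
    W.IsResiduallyModularOfLevel p M := by
  classical
  have hp : p.Prime := Fact.out
  obtain ⟨f, 𝔪, hf, h𝔪, hp𝔪, hcong⟩ := hres
  have hrM0 : r * M ≠ 0 := Nat.mul_ne_zero hr.ne_zero hM.ne'
  haveI : NeZero (r * M) := ⟨hrM0⟩
  haveI : NeZero M := ⟨hM.ne'⟩
  obtain ⟨M₀, hM₀, g₀, hg₀, hcoef⟩ := Fermat.Agent.Lib.Newform.descent (r * M) f hf
  have hM₀0 : M₀ ≠ 0 := by
    rintro rfl
    exact hrM0 (zero_dvd_iff.mp hM₀)
  haveI : NeZero M₀ := ⟨hM₀0⟩
  -- the comparison set
  set S' : Finset ℕ := (r * M * p).primeFactors ∪ W.Δ.natAbs.primeFactors with hS'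
  have hrMp0 : r * M * p ≠ 0 := Nat.mul_ne_zero hrM0 hp.ne_zero
  have hS'mem : ∀ ℓ : ℕ, ℓ.Prime → ℓ ∉ S' →
      ¬ ℓ ∣ r * M ∧ ℓ ≠ p ∧ W.IsGoodPrimeFor ℓ := by
    intro ℓ hℓ hℓS
    rw [hS', Finset.mem_union, not_or] at hℓS
    refine ⟨fun h => hℓS.1 (Nat.mem_primeFactors.mpr ⟨hℓ, h.mul_right p, hrMp0⟩),
      fun h => hℓS.1 (Nat.mem_primeFactors.mpr ⟨hℓ, h ▸ dvd_mul_left ℓ (r * M), hrMp0⟩), ?_⟩
    intro hdvd
    apply hℓS.2
    rw [Nat.mem_primeFactors]
    exact ⟨hℓ, Int.natCast_dvd.mp hdvd, by simpa using hΔ⟩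
  by_cases hrM₀ : r ∣ M₀
  · -- `r ∥ M₀`: impossible
    exfalso
    have hr2 : ¬ r ^ 2 ∣ M₀ := by
      intro h
      have h1 : r * r ∣ r * M := by
        rw [← pow_two]
        exact h.trans hM₀
      exact hrM ((Nat.mul_dvd_mul_iff_left hr.pos).mp h1)
    have hpS' : p ∈ S' := by
      rw [hS']
      refine Finset.mem_union_left _ (Nat.mem_primeFactors.mpr ⟨hp, dvd_mul_left p _, hrMp0⟩)
    have hMS' : ∀ q : ℕ, q.Prime → q ∣ M₀ → q ∈ S' := by
      intro q hq hqM₀
      rw [hS']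
      exact Finset.mem_union_left _
        (Nat.mem_primeFactors.mpr ⟨hq, (hqM₀.trans hM₀).mul_right p, hrMp0⟩)
    set chig : heckeAlgebra M₀ 2 (↑S' : Set ℕ) →+* ℂ :=
      Fermat.Agent.S58.H94.chigOf hg₀.1 (↑S' : Set ℕ) with hchigdef
    have hchig : ∀ (ℓ : ℕ) (hℓ : ℓ.Prime) (hℓM : ¬ ℓ ∣ M₀) (hℓS : ℓ ∉ (↑S' : Set ℕ)),
        chig (heckeAlgebra.T hℓ hℓM hℓS) = qCoeff ⇑g₀ ℓ :=
      fun ℓ hℓ hℓM hℓS => Fermat.Agent.S58.H94.chigOf_T hg₀.1 _ hℓ hℓM hℓS
    -- the coefficient ring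
    have hfin : Module.Finite ℤ (heckeAlgebra M₀ 2 (↑S' : Set ℕ)) :=
      Fermat.Agent.S22.result M₀ 2 _
    have hint : ∀ x ∈ chig.range, x ∈ integralClosure ℤ ℂ := by
      rintro x ⟨t, rfl⟩
      have ht : IsIntegral ℤ t := Algebra.IsIntegral.isIntegral t
      exact ht.map chig.toIntAlgHom
    haveI : Module.Finite ℤ chig.range :=
      Module.Finite.of_surjective (chig.rangeRestrict.toIntAlgHom.toLinearMap)
        chig.rangeRestrict_surjective
    have hPTS : Fermat.Agent.S31.PTS p chig.range :=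
      Fermat.Agent.S31.H262.pts_of_reduced p hp chig.range
    -- the prime of `chig.range` below `𝔪`
    haveI : 𝔪.IsMaximal := h𝔪
    let θ : chig.range →+* (integralClosure ℤ ℂ ⧸ 𝔪) :=
      (Ideal.Quotient.mk 𝔪).comp (inclOf646 chig.range hint)
    haveI : (RingHom.ker θ).IsPrime := RingHom.ker_isPrime θ
    have hpker : ((p : ℕ) : chig.range) ∈ RingHom.ker θ := by
      rw [RingHom.mem_ker, map_natCast, ← map_natCast (Ideal.Quotient.mk 𝔪)]
      exact Ideal.Quotient.eq_zero_iff_mem.mpr hp𝔪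
    obtain ⟨P, hP⟩ := Fermat.Agent.S59.H401.dict_exists_point_of_pts hPTS (RingHom.ker θ) hpker
    -- the representation of S35
    obtain ⟨O'', j1, j2, j3, j4, j5, j6, j7, j8, j9, hinj, ρ, hρ, hbad⟩ :=
      h35 hg₀ p S' P.O P.hp chig hchig P.χ hpS' hMS'
    have hpO'' : (p : O'') ∈ maximalIdeal O'' :=
      Fermat.Agent.S58.H273.natCast_mem_maximalIdeal_of_isLocalHom p P.hp
    haveI hchar : CharP (ResidueField O'') p :=
      Fermat.Agent.S58.H273.charP_residueField p hpO''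
    let ι : ZMod p →+* ResidueField O'' := ZMod.castHom (dvd_refl p) (ResidueField O'')
    -- residual Frobenius characteristic polynomials
    have hall := Fermat.Agent.S58.H273.charpoly_residual_eq_of_frob
      (Fermat.Agent.S58.H273.wRes W hΔ p) ι ρ S' (by
        intro ℓ hℓ hℓS B hB σ hσ
        obtain ⟨hℓrM, hℓp, hℓgood⟩ := hS'mem ℓ hℓ hℓS
        have hℓM₀ : ¬ ℓ ∣ M₀ := fun h => hℓrM (h.trans hM₀)
        have hℓS'' : ℓ ∉ (↑S' : Set ℕ) := fun h => hℓS (Finset.mem_coe.mp h)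
        -- the key congruence
        obtain ⟨b, hb, hbm⟩ := hcong ℓ hℓ hℓgood hℓrM hℓp
        have hT : chig (heckeAlgebra.T hℓ hℓM₀ hℓS'') = (b : ℂ) := by
          rw [hchig, hcoef ℓ hℓ hℓrM, hb]
        have hker : chig.rangeRestrict (heckeAlgebra.T hℓ hℓM₀ hℓS'')
            - ((W.apOfModel ℓ : ℤ) : chig.range) ∈ RingHom.ker θ := by
          rw [RingHom.mem_ker, map_sub, map_intCast]
          have h1 : θ (chig.rangeRestrict (heckeAlgebra.T hℓ hℓM₀ hℓS''))
              = Ideal.Quotient.mk 𝔪 b := by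
            show Ideal.Quotient.mk 𝔪 (inclOf646 chig.range hint _) = _
            congr 1
            exact Subtype.ext hT
          rw [h1, ← map_intCast (Ideal.Quotient.mk 𝔪), ← map_sub]
          exact Ideal.Quotient.eq_zero_iff_mem.mpr hbm
        have h2 := hP _ hker
        have h3 : algebraMap P.O O'' (P.χ (chig.rangeRestrict (heckeAlgebra.T hℓ hℓM₀ hℓS'')
            - ((W.apOfModel ℓ : ℤ) : chig.range))) ∈ maximalIdeal O'' := by
          rw [mem_maximalIdeal, mem_nonunits_iff] at h2 ⊢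
          exact fun hu => h2 (isUnit_of_map_unit (algebraMap P.O O'') _ hu)
        have h4 : residue O'' (algebraMap P.O O''
            (P.χ (chig.rangeRestrict (heckeAlgebra.T hℓ hℓM₀ hℓS''))))
            = ((W.apOfModel ℓ : ℤ) : ResidueField O'') := by
          have := (residue_eq_zero_iff _).mpr h3
          rw [map_sub, map_sub, map_sub, map_intCast, map_intCast, map_intCast,
            sub_eq_zero] at this
          exact this
        rw [hρ ℓ hℓ hℓM₀ hℓS'' B hB σ hσ,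
          Fermat.Agent.S58.H273.wRes_charpoly_frob W hΔ p hp2 hirr ℓ hℓ hℓp hℓgood B hB σ hσ]
        rw [map_quad646, map_quad646, RingHom.comp_apply, h4, map_intCast ι, map_natCast ι,
          map_natCast (residue O'')])
    -- a Frobenius at `r`
    obtain ⟨A, φ, hA, hφ⟩ := Fermat.Agent.S54.exists_frobenius r hr
    have h1 := hall φ
    have h2 : LinearMap.charpoly (ρ.residual.ρ φ)
        = (LinearMap.charpoly (ρ.ρ φ)).map (residue O'') :=
      LinearMap.charpoly_baseChange (ρ.ρ φ) (ResidueField O'')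
    rw [h2, Fermat.Agent.S58.H273.wRes_charpoly_frob W hΔ p hp2 hirr r hr hrp hgood A hA φ hφ]
      at h1
    have hcast : ∀ n : ℤ, ((n : ℤ) : ResidueField O'') = 0 → (p : ℤ) ∣ n := fun n hn =>
      (CharP.intCast_eq_zero_iff (ResidueField O'') p n).mp hn
    apply hne
    have hfac : W.apOfModel r ^ 2 - ((r : ℤ) + 1) ^ 2
        = (W.apOfModel r - ((r : ℤ) + 1)) * (W.apOfModel r + ((r : ℤ) + 1)) := by ring
    rw [hfac]
    rcases hbad r hr hrp hrM₀ hr2 A hA φ hφ with hc | hc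
    · rw [hc, map_quad646, map_quad646] at h1
      have h5 := congrArg (fun q : (ResidueField O'')[X] => q.coeff 1) h1
      simp only [coeff_one_quad646] at h5
      rw [map_add, map_one, map_natCast, map_intCast] at h5
      apply Dvd.dvd.mul_right
      apply hcast
      push_cast
      rw [sub_eq_zero]
      exact (neg_injective h5).symm
    · rw [hc, map_quad646', map_quad646] at h1
      have h5 := congrArg (fun q : (ResidueField O'')[X] => q.coeff 1) h1
      simp only [coeff_one_quad646, coeff_one_quad646'] at h5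
      rw [map_add, map_one, map_natCast, map_intCast] at h5
      apply Dvd.dvd.mul_left
      apply hcast
      push_cast
      rw [h5, add_neg_cancel]
  · -- `r ∤ M₀`: the newform has level dividing `M`
    have hcop : Nat.Coprime M₀ r := ((Nat.Prime.coprime_iff_not_dvd hr).mpr hrM₀).symm
    have hM₀M : M₀ ∣ M := hcop.dvd_of_dvd_mul_left hM₀
    obtain ⟨g', hg', hcoef'⟩ := Fermat.Agent.Lib.Newform.stab M₀ M hM₀M g₀ hg₀.1
    have hw := hAA W p M hΔ hp hp2 hM hirr g' 𝔪 S' hg' h𝔪 hp𝔪 (fun ℓ hℓ hℓS => by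
      obtain ⟨hℓrM, hℓp, hℓgood⟩ := hS'mem ℓ hℓ hℓS
      have hℓM : ¬ ℓ ∣ M := fun h => hℓrM (h.mul_left r)
      obtain ⟨a, ha, ham⟩ := hcong ℓ hℓ hℓgood hℓrM hℓp
      exact ⟨a, by rw [ha, hcoef' ℓ hℓ hℓM, hcoef ℓ hℓ hℓrM], ham⟩)
    exact ⟨g', 𝔪, hw⟩

end Fermat.Agent.S59.LO.H646
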